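import Fermat.Agent.GamH.Eis
import Fermat.Agent.ModPoly.QEvalP
import Fermat.Agent.ModPoly.JDelta
import Fermat.Agent.MFLib.XNExp
import Fermat.Agent.KumG.Defs

/-!
# The lattice sums as modular forms of level `Γ_H(N)`
-/

set_option autoImplicit false
set_option linter.style.haveILetI false
set_option linter.unusedSectionVars false

noncomputable section

open UpperHalfPlane hiding I
open Complex Filter ModularForm EisensteinSeries Matrix
open scoped Topology MatrixGroups Real Manifold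

namespace Fermat.Agent.GamH

open Fermat.Agent.MFLib Fermat.Agent.ModPoly Fermat.Agent.KumG

variable {M : ℕ} [NeZero M]

theorem qpp_eq_qM (τ : ℍ) : qpp M τ = qM M (τ : ℂ) := by
  rw [qpp, Function.Periodic.qParam, qM]
  push_cast
  rfl

theorem conv_lsum (P : ℤ → Prop) (b : ZMod M) :
    Conv (HahnSeries.ofPowerSeries ℤ ℂ (PowerSeries.mk (cG P b))) :=
  conv_ofPowerSeries fun z hz hz1 => by
    obtain ⟨τ, rfl⟩ := exists_qpp_eq M hz hz1
    simp only [PowerSeries.coeff_mk]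
    rw [qpp_eq_qM]
    exact (hasSum_lsum P b τ).summable

theorem evP_lsum (P : ℤ → Prop) (b : ZMod M) :
    evP M ⟨_, conv_lsum P b⟩ = lsum P b := by
  funext τ
  rw [evP_apply]
  refine (hasSum_ofPowerSeries ?_).tsum_eq
  simp only [PowerSeries.coeff_mk]
  rw [qpp_eq_qM]
  exact hasSum_lsum P b τ

theorem mdiff_lsum (P : ℤ → Prop) (b : ZMod M) : MDiff (lsum P b : ℍ → ℂ) := by
  rw [← evP_lsum P b]
  exact mdiff_evP M _

theorem bounded_lsum (P : ℤ → Prop) (b : ZMod M) :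
    IsBoundedAtImInfty (lsum P b : ℍ → ℂ) := by
  rw [← evP_lsum P b]
  refine bounded_evP_of_coeff M fun n hn => ?_
  exact ModularCurve.ofPowerSeries_coeff_of_neg _ hn

/-! ### general lattice sums -/

open Classical in
/-- the lattice sum of weight four over the vectors satisfying `R` -/
def Lat (R : (Fin 2 → ℤ) → Prop) (z : ℍ) : ℂ :=
  ∑' v : Fin 2 → ℤ, if R v then eisSummand 4 v z else 0

theorem summable_Lat (R : (Fin 2 → ℤ) → Prop) [DecidablePred R] (z : ℍ) :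
    Summable (fun v : Fin 2 → ℤ => if R v then eisSummand 4 v z else 0) := by
  have h1 : Summable fun v : Fin 2 → ℤ ↦ ‖eisSummand 4 v z‖ :=
    summable_norm_eisSummand (by norm_num) z
  refine Summable.of_norm_bounded h1 fun v => ?_
  split_ifs
  · exact le_rfl
  · rw [norm_zero]; exact norm_nonneg _

theorem mul_inv_val (γ : SL(2, ℤ)) : γ.1 * (γ⁻¹).1 = 1 := by
  have := congrArg Subtype.val (mul_inv_cancel γ)
  exact this

theorem inv_mul_val (γ : SL(2, ℤ)) : (γ⁻¹).1 * γ.1 = 1 := by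
  have := congrArg Subtype.val (inv_mul_cancel γ)
  exact this

/-- right multiplication by a unimodular matrix -/
def vecE (γ : SL(2, ℤ)) : (Fin 2 → ℤ) ≃ (Fin 2 → ℤ) where
  toFun v := v ᵥ* γ.1
  invFun v := v ᵥ* (γ⁻¹).1
  left_inv v := by
    change (v ᵥ* γ.1) ᵥ* (γ⁻¹).1 = v
    rw [Matrix.vecMul_vecMul, mul_inv_val, Matrix.vecMul_one]
  right_inv v := by
    change (v ᵥ* (γ⁻¹).1) ᵥ* γ.1 = v
    rw [Matrix.vecMul_vecMul, inv_mul_val, Matrix.vecMul_one]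

theorem Lat_slash (R : (Fin 2 → ℤ) → Prop) (γ : SL(2, ℤ)) :
    Lat R ∣[(4 : ℤ)] γ = Lat (fun v => R (v ᵥ* (γ⁻¹).1)) := by
  classical
  funext z
  have hr : Lat (fun v => R (v ᵥ* (γ⁻¹).1)) z = ∑' v : Fin 2 → ℤ,
      if R (vecE γ v ᵥ* (γ⁻¹).1) then eisSummand 4 (vecE γ v) z else 0 := by
    rw [Lat]
    exact ((vecE γ).tsum_eq _).symm
  rw [hr, SL_slash_apply, Lat, ← tsum_mul_right]
  refine tsum_congr fun v => ?_
  have h1 : (vecE γ v) ᵥ* (γ⁻¹).1 = v := (vecE γ).left_inv v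
  rw [h1]
  by_cases h : R v
  · rw [if_pos h, if_pos h]
    have h2 := eisSummand_SL2_apply 4 v γ z
    rw [h2]
    have h3 : denom (γ : GL (Fin 2) ℝ) z ≠ 0 := denom_ne_zero _ z
    have h4 : vecE γ v = v ᵥ* γ.1 := rfl
    rw [h4, mul_right_comm, ← zpow_add₀ h3]
    simp
  · rw [if_neg h, if_neg h, zero_mul]

theorem Lat_eq_sum {N : ℕ} [NeZero N] (R : (Fin 2 → ZMod N) → Prop) :
    Lat (fun v => R (fun i => (v i : ZMod N))) =
      ∑ b : ZMod N, lsum (fun m => R ![(m : ZMod N), b]) b := by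
  classical
  funext z
  rw [Finset.sum_apply, Lat]
  simp only [lsum]
  rw [← Summable.tsum_finsetSum (fun b _ => summable_trm _ b z), ← (finTwoArrowEquiv ℤ).symm.tsum_eq]
  refine tsum_congr fun w => ?_
  have h0 : (finTwoArrowEquiv ℤ).symm w = ![w.1, w.2] := rfl
  have h1 : (fun i => ((![w.1, w.2] i : ℤ) : ZMod N)) = ![(w.1 : ZMod N), (w.2 : ZMod N)] := by
    funext i
    fin_cases i <;> rfl
  rw [h0, h1, Finset.sum_eq_single ((w.2 : ZMod N))]
  · rw [trm]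
    simp only [and_true]
    congr 1
  · intro b _ hb
    rw [trm, if_neg (fun h => hb h.2.symm)]
  · intro h
    exact absurd (Finset.mem_univ _) h

theorem HB_Lat {N : ℕ} [NeZero N] (R : (Fin 2 → ZMod N) → Prop) :
    HB 4 (Lat (fun v => R (fun i => (v i : ZMod N)))) where
  holo := by
    rw [Lat_eq_sum]
    have : ∀ s : Finset (ZMod N),
        MDiff (∑ b ∈ s, lsum (fun m => R ![(m : ZMod N), b]) b : ℍ → ℂ) := by
      intro s
      classical
      induction s using Finset.induction_on with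
      | empty => exact fun _ => mdifferentiableAt_const
      | insert i s hi ih =>
        rw [Finset.sum_insert hi]
        exact (mdiff_lsum _ _).add ih
    exact this _
  bdd γ := by
    rw [Lat_slash]
    have h1 : (fun v : Fin 2 → ℤ => R (fun i =>
        (((v ᵥ* (γ⁻¹).1) i : ℤ) : ZMod N))) =
      fun v : Fin 2 → ℤ => (fun u : Fin 2 → ZMod N => R (u ᵥ*
        (γ⁻¹).1.map (Int.cast : ℤ → ZMod N)))
          (fun i => (v i : ZMod N)) := by
      funext v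
      congr 1
      funext i
      simp [Matrix.vecMul, dotProduct]
    rw [h1, Lat_eq_sum (fun u : Fin 2 → ZMod N => R (u ᵥ* (γ⁻¹).1.map (Int.cast : ℤ → ZMod N)))]
    have : ∀ (s : Finset (ZMod N)) (f : ZMod N → ℤ → Prop),
        IsBoundedAtImInfty (∑ b ∈ s, lsum (f b) b : ℍ → ℂ) := by
      intro s f
      classical
      induction s using Finset.induction_on with
      | empty =>
        rw [Finset.sum_empty]
        exact zero_form_isBoundedAtImInfty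
      | insert i s hi ih =>
        rw [Finset.sum_insert hi]
        exact (bounded_lsum _ _).add ih
    exact this _ _

/-! ### the series `F_a` -/

variable {N : ℕ} [NeZero N] (H : Subgroup (ZMod N)ˣ)

/-- membership in the class `a H` -/
def inC (a : (ZMod N)ˣ) (x : ZMod N) : Prop := ∃ h ∈ H, x = a * (h : (ZMod N)ˣ)

/-- the sum of `(m z + n)^{-4}` over `m` in the class `a H` -/
def Fa (a : (ZMod N)ˣ) : ℍ → ℂ := Lat (fun v => inC H a (v 0 : ZMod N))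

theorem HB_Fa (a : (ZMod N)ˣ) : HB 4 (Fa H a) :=
  HB_Lat (fun v : Fin 2 → ZMod N => inC H a (v 0))

variable {H}

theorem inC_mul (a u : (ZMod N)ˣ) (x : ZMod N) :
    inC H a (x * u) ↔ inC H (a * u⁻¹) x := by
  constructor
  · rintro ⟨h, hh, he⟩
    refine ⟨h, hh, ?_⟩
    calc x = x * u * ((u⁻¹ : (ZMod N)ˣ) : ZMod N) := by rw [mul_assoc, Units.mul_inv, mul_one]
      _ = _ := by rw [he]; push_cast; ring
  · rintro ⟨h, hh, he⟩
    refine ⟨h, hh, ?_⟩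
    rw [he]
    push_cast
    calc (a : ZMod N) * ((u⁻¹ : (ZMod N)ˣ) : ZMod N) * h * u =
        a * h * (u * ((u⁻¹ : (ZMod N)ˣ) : ZMod N)) := by ring
      _ = _ := by rw [Units.mul_inv, mul_one]

theorem inC_neg (hH : -1 ∈ H) (a : (ZMod N)ˣ) (x : ZMod N) : inC H a (-x) ↔ inC H a x := by
  have key : ∀ y : ZMod N, inC H a y → inC H a (-y) := by
    rintro y ⟨h, hh, he⟩
    refine ⟨-1 * h, mul_mem hH hh, ?_⟩
    rw [he]
    simp
  exact ⟨fun h => by simpa using key _ h, key x⟩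

theorem inC_mul_mem {u : (ZMod N)ˣ} (hu : u ∈ H) (a : (ZMod N)ˣ) (x : ZMod N) :
    inC H (a * u) x ↔ inC H a x := by
  constructor
  · rintro ⟨h, hh, he⟩
    exact ⟨u * h, mul_mem hu hh, by rw [he]; push_cast; ring⟩
  · rintro ⟨h, hh, he⟩
    refine ⟨u⁻¹ * h, mul_mem (inv_mem hu) hh, ?_⟩
    rw [he]
    push_cast
    calc (a : ZMod N) * h = a * h * (u * ((u⁻¹ : (ZMod N)ˣ) : ZMod N)) := by
          rw [Units.mul_inv, mul_one]
      _ = _ := by ring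

theorem Fa_slash {γ : SL(2, ℤ)} (hγ : γ ∈ CongruenceSubgroup.Gamma0 N) {u : (ZMod N)ˣ}
    (hu : (u : ZMod N) = ((γ 1 1 : ℤ) : ZMod N)) (a : (ZMod N)ˣ) :
    Fa H a ∣[(4 : ℤ)] γ = Fa H (a * u⁻¹) := by
  rw [Fa, Lat_slash, Fa]
  congr 1
  funext v
  have h0 : ((γ 1 0 : ℤ) : ZMod N) = 0 := CongruenceSubgroup.Gamma0_mem.1 hγ
  have h1 : (v ᵥ* (γ⁻¹).1) 0 = v 0 * γ 1 1 - v 1 * γ 1 0 := by
    have h2 : (γ⁻¹).1 = !![γ 1 1, -γ 0 1; -γ 1 0, γ 0 0] := by
      have := Matrix.SpecialLinearGroup.coe_inv γ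
      rw [Matrix.adjugate_fin_two] at this
      exact this
    rw [h2]
    simp [Matrix.vecMul, dotProduct, Fin.sum_univ_two]
    ring
  rw [h1]
  push_cast
  rw [h0, mul_zero, sub_zero, ← hu]
  exact propext (inC_mul a u _)

theorem Fa_mul_mem {u : (ZMod N)ˣ} (hu : u ∈ H) (a : (ZMod N)ˣ) : Fa H (a * u) = Fa H a := by
  rw [Fa, Fa]
  congr 1
  funext v
  exact propext (inC_mul_mem hu a _)

theorem isMF_Fa (a : (ZMod N)ˣ) : IsMF (GH N H) 4 (Fa H a) where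
  toHB := HB_Fa H a
  slash γ hγ := by
    obtain ⟨h0, u, hu, hu'⟩ := mem_GH.1 hγ
    rw [Fa_slash h0 hu' a, Fa_mul_mem (inv_mem hu)]

theorem isMF_Fa' (a : (ZMod N)ˣ) : IsMF (CongruenceSubgroup.Gamma1 N) 4 (Fa H a) :=
  (isMF_Fa a).mono (Gamma1_le_GH N H)

theorem T_mem_Gamma1 (N : ℕ) : ModularGroup.T ∈ CongruenceSubgroup.Gamma1 N := by
  rw [CongruenceSubgroup.Gamma1_mem]
  simp [ModularGroup.T]

theorem qg_Fa (a : (ZMod N)ˣ) : QG (Fa H a) := (isMF_Fa' a).qg (T_mem_Gamma1 N)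

/-- `F_a` as a sum of type `lsum` with trivial modulus -/
theorem Fa_eq_lsum (a : (ZMod N)ˣ) :
    Fa H a = lsum (M := 1) (fun m => inC H a (m : ZMod N)) 0 := by
  classical
  funext z
  rw [Fa, Lat, lsum, ← (finTwoArrowEquiv ℤ).symm.tsum_eq]
  refine tsum_congr fun w => ?_
  have h0 : (finTwoArrowEquiv ℤ).symm w = ![w.1, w.2] := rfl
  rw [h0, trm]
  have h1 : ((w.2 : ℤ) : ZMod 1) = 0 := Subsingleton.elim _ _
  simp only [h1, and_true]
  congr 1

open Classical in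
/-- the integral power series `Σ_{m ∈ aH} Σ_r r³ q^{mr}` -/
def fa (H : Subgroup (ZMod N)ˣ) (a : (ZMod N)ˣ) : PowerSeries ℤ :=
  PowerSeries.mk fun n => ∑ x ∈ n.divisorsAntidiagonal,
    if inC H a ((x.1 : ℕ) : ZMod N) then (x.2 : ℤ) ^ 3 else 0

theorem not_inC_zero (hN : 2 ≤ N) (a : (ZMod N)ˣ) : ¬ inC H a (0 : ZMod N) := by
  rintro ⟨h, -, he⟩
  haveI : Fact (1 < N) := ⟨hN⟩
  haveI : Nontrivial (ZMod N) := ZMod.nontrivial N
  have : IsUnit (0 : ZMod N) := by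
    rw [he, ← Units.val_mul]
    exact Units.isUnit _
  exact not_isUnit_zero this

theorem cG_Fa (hN : 2 ≤ N) (hH : -1 ∈ H) (a : (ZMod N)ˣ) (n : ℕ) :
    cG (M := 1) (fun m => inC H a (m : ZMod N)) 0 n = 2 * C4 1 * ((fa H a).coeff n : ℂ) := by
  classical
  rw [cG]
  have hz : zM 1 = 1 := by
    have := zM_pow 1
    rwa [pow_one] at this
  by_cases hn : n = 0
  · subst hn
    rw [if_pos rfl, if_neg]
    · simp [fa]
    · simpa using not_inC_zero hN a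
  · rw [if_neg hn, fa, PowerSeries.coeff_mk, hz]
    have hm : (2 * C4 1 * ((∑ x ∈ n.divisorsAntidiagonal,
        if inC H a ((x.1 : ℕ) : ZMod N) then (x.2 : ℤ) ^ 3 else 0 : ℤ) : ℂ)) =
        C4 1 * ∑ x ∈ n.divisorsAntidiagonal,
          (2 * if inC H a ((x.1 : ℕ) : ZMod N) then (x.2 : ℂ) ^ 3 else 0) := by
      rw [← Finset.mul_sum]
      push_cast
      ring
    rw [hm]
    congr 1
    refine Finset.sum_congr rfl fun x _ => ?_
    push_cast
    have h1 : inC H a (-((x.1 : ℕ) : ZMod N)) ↔ inC H a ((x.1 : ℕ) : ZMod N) := inC_neg hH a _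
    simp only [one_pow, mul_one, h1]
    split_ifs <;> ring

theorem hasSum_Fa (hN : 2 ≤ N) (hH : -1 ∈ H) (a : (ZMod N)ˣ) (τ : ℍ) :
    HasSum (fun n : ℕ => (2 * C4 1 * ((fa H a).coeff n : ℂ)) •
      Function.Periodic.qParam (1 : ℝ) τ ^ n) (Fa H a τ) := by
  have h1 := hasSum_lsum (M := 1) (fun m => inC H a (m : ZMod N)) 0 τ
  rw [← Fa_eq_lsum] at h1
  have h2 : qM 1 (τ : ℂ) = Function.Periodic.qParam (1 : ℝ) τ := by
    rw [qM, Function.Periodic.qParam]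
    norm_num
  rw [h2] at h1
  refine h1.congr_fun ?_
  intro n
  rw [smul_eq_mul, ← cG_Fa hN hH]

theorem qe_Fa (hN : 2 ≤ N) (hH : -1 ∈ H) (a : (ZMod N)ˣ) :
    qe (Fa H a) = (2 * C4 1) • (fa H a).map (Int.castRingHom ℂ) := by
  ext n
  obtain ⟨c, hc⟩ : ∃ c : ℕ → ℂ, c = fun n => 2 * C4 1 * ((fa H a).coeff n : ℂ) := ⟨_, rfl⟩
  have h1 : ∀ τ : ℍ, HasSum (fun n : ℕ => c n • Function.Periodic.qParam (1 : ℝ) τ ^ n)
      ((isMF_Fa' (H := H) a).toForm τ) := by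
    intro τ
    rw [hc]
    exact hasSum_Fa hN hH a τ
  have h2 := UpperHalfPlane.qExpansion_coeff_unique ((isMF_Fa' (H := H) a).toForm) (h := 1) one_pos
    (qg_Fa a).analyticAt h1 n
  rw [hc] at h2
  rw [PowerSeries.coeff_smul, PowerSeries.coeff_map, smul_eq_mul]
  exact h2.symm

/-! ### normalised series -/

/-- the normalised series, with `q`-expansion `f_a` -/
def Ea (H : Subgroup (ZMod N)ˣ) (a : (ZMod N)ˣ) : ℍ → ℂ := (2 * C4 1)⁻¹ • Fa H a

theorem C4_two_ne : (2 * C4 1 : ℂ) ≠ 0 := mul_ne_zero two_ne_zero (C4_ne_zero 1)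

theorem isMF_Ea (a : (ZMod N)ˣ) : IsMF (GH N H) 4 (Ea H a) := (isMF_Fa a).smul _

theorem qg_Ea (a : (ZMod N)ˣ) : QG (Ea H a) :=
  ((isMF_Ea a).mono (Gamma1_le_GH N H)).qg (T_mem_Gamma1 N)

theorem Ea_slash {γ : SL(2, ℤ)} (hγ : γ ∈ CongruenceSubgroup.Gamma0 N) {u : (ZMod N)ˣ}
    (hu : (u : ZMod N) = ((γ 1 1 : ℤ) : ZMod N)) (a : (ZMod N)ˣ) :
    Ea H a ∣[(4 : ℤ)] γ = Ea H (a * u⁻¹) := by
  rw [Ea, SL_smul_slash, Fa_slash hγ hu, Ea]

theorem Ea_mul_mem {u : (ZMod N)ˣ} (hu : u ∈ H) (a : (ZMod N)ˣ) : Ea H (a * u) = Ea H a := by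
  rw [Ea, Ea, Fa_mul_mem hu]

theorem qe_Ea (hN : 2 ≤ N) (hH : -1 ∈ H) (a : (ZMod N)ˣ) :
    qe (Ea H a) = (fa H a).map (Int.castRingHom ℂ) := by
  rw [Ea, (qg_Fa a).qe_smul, qe_Fa hN hH, smul_smul, inv_mul_cancel₀ C4_two_ne, one_smul]

theorem isInt_qe_Ea (hN : 2 ≤ N) (hH : -1 ∈ H) (a : (ZMod N)ˣ) : IsInt (qe (Ea H a)) := fun n =>
  ⟨(fa H a).coeff n, by rw [qe_Ea hN hH, PowerSeries.coeff_map]; rfl⟩

open Classical in
theorem coeff_fa_one (a : (ZMod N)ˣ) : (fa H a).coeff 1 = if a ∈ H then 1 else 0 := by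
  rw [fa, PowerSeries.coeff_mk, Nat.divisorsAntidiagonal_one, Finset.sum_singleton]
  have : inC H a ((1 : ℕ) : ZMod N) ↔ a ∈ H := by
    constructor
    · rintro ⟨h, hh, he⟩
      have h1 : (1 : (ZMod N)ˣ) = a * h := by
        apply Units.ext
        rw [Units.val_one, Units.val_mul, ← he, Nat.cast_one]
      have h2 : a = h⁻¹ := eq_inv_of_mul_eq_one_left h1.symm
      rw [h2]
      exact inv_mem hh
    · intro ha
      refine ⟨a⁻¹, inv_mem ha, ?_⟩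
      rw [← Units.val_mul, mul_inv_cancel, Units.val_one, Nat.cast_one]
  simp only [this]
  norm_num

theorem Gamma0_mul_11 {γ δ : SL(2, ℤ)} (hγ : γ ∈ CongruenceSubgroup.Gamma0 N) :
    (((γ * δ) 1 1 : ℤ) : ZMod N) = ((γ 1 1 : ℤ) : ZMod N) * ((δ 1 1 : ℤ) : ZMod N) := by
  have h0 : ((γ 1 0 : ℤ) : ZMod N) = 0 := CongruenceSubgroup.Gamma0_mem.1 hγ
  have h1 : (γ * δ) 1 1 = γ 1 0 * δ 0 1 + γ 1 1 * δ 1 1 := by
    rw [Matrix.SpecialLinearGroup.coe_mul, Matrix.mul_apply, Fin.sum_univ_two]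
  rw [h1]
  push_cast
  rw [h0]
  ring

theorem Gamma0_det {γ : SL(2, ℤ)} (hγ : γ ∈ CongruenceSubgroup.Gamma0 N) :
    ((γ 0 0 : ℤ) : ZMod N) * ((γ 1 1 : ℤ) : ZMod N) = 1 := by
  have hdet := congrArg (Int.cast : ℤ → ZMod N) γ.det_coe
  rw [Matrix.det_fin_two] at hdet
  push_cast at hdet
  have hc : ((γ 1 0 : ℤ) : ZMod N) = 0 := CongruenceSubgroup.Gamma0_mem.1 hγ
  rwa [hc, mul_zero, sub_zero] at hdet

/-- the unit `d mod N` of an element of `Γ₀(N)` -/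
def dU {γ : SL(2, ℤ)} (hγ : γ ∈ CongruenceSubgroup.Gamma0 N) : (ZMod N)ˣ where
  val := ((γ 1 1 : ℤ) : ZMod N)
  inv := ((γ 0 0 : ℤ) : ZMod N)
  val_inv := by rw [mul_comm]; exact Gamma0_det hγ
  inv_val := Gamma0_det hγ

theorem coe_dU {γ : SL(2, ℤ)} (hγ : γ ∈ CongruenceSubgroup.Gamma0 N) :
    (dU hγ : ZMod N) = ((γ 1 1 : ℤ) : ZMod N) := rfl

theorem GH_norm (H : Subgroup (ZMod N)ˣ) {γ δ : SL(2, ℤ)} (hγ : γ ∈ CongruenceSubgroup.Gamma0 N)
    (hδ : δ ∈ GH N H) : γ * δ * γ⁻¹ ∈ GH N H := by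
  obtain ⟨h0, u, hu, hu'⟩ := mem_GH.1 hδ
  refine mem_GH.2 ⟨mul_mem (mul_mem hγ h0) (inv_mem hγ), u, hu, ?_⟩
  have h1 : (γ⁻¹) 1 1 = γ 0 0 := by
    rw [Matrix.SpecialLinearGroup.coe_inv, Matrix.adjugate_fin_two]
    simp
  rw [Gamma0_mul_11 (mul_mem hγ h0), Gamma0_mul_11 hγ, h1, ← hu']
  calc (u : ZMod N) = (((γ 0 0 : ℤ) : ZMod N) * ((γ 1 1 : ℤ) : ZMod N)) * u := by
        rw [Gamma0_det hγ, one_mul]
    _ = _ := by ring

theorem Ea_slash_ne (hN : 2 ≤ N) (hH : -1 ∈ H) {γ : SL(2, ℤ)}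
    (h0 : γ ∈ CongruenceSubgroup.Gamma0 N) (hγ : γ ∉ GH N H) : Ea H 1 ∣[(4 : ℤ)] γ ≠ Ea H 1 := by
  have huH : dU h0 ∉ H := fun h => hγ ⟨h0, dU h0, h, coe_dU h0⟩
  intro heq
  rw [Ea_slash h0 (coe_dU h0), one_mul] at heq
  have h4 : (fa H (dU h0)⁻¹).coeff 1 = (fa H (1 : (ZMod N)ˣ)).coeff 1 := by
    have h5 := congrArg (fun F => (qe F).coeff 1) heq
    simp only [qe_Ea hN hH, PowerSeries.coeff_map] at h5
    exact (algebraMap ℤ ℂ).injective_int h5
  rw [coeff_fa_one, coeff_fa_one, if_pos (one_mem H), if_neg] at h4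
  · exact zero_ne_one h4
  · intro h
    exact huH (by simpa using inv_mem h)

theorem two_le_of_notMem (N : ℕ) [NeZero N] (H : Subgroup (ZMod N)ˣ) {γ : SL(2, ℤ)}
    (h0 : γ ∈ CongruenceSubgroup.Gamma0 N) (hγ : γ ∉ GH N H) : 2 ≤ N := by
  by_contra h
  have h1 : N = 1 := by
    have := NeZero.ne N
    omega
  apply hγ
  subst h1
  exact ⟨h0, 1, one_mem _, Subsingleton.elim _ _⟩

/-- the groups `Γ_H(N)` are normalised by `Γ₀(N)` and cut out by rational modular forms -/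
theorem diaG_GH (N : ℕ) [NeZero N] (H : Subgroup (ZMod N)ˣ) (hH : -1 ∈ H) :
    DiaG (GH N H) (CongruenceSubgroup.Gamma0 N) where
  norm γ hγ δ hδ := GH_norm H hγ hδ
  sep γ hγ := by
    by_cases h0 : γ ∈ CongruenceSubgroup.Gamma0 N
    · -- the twisted Eisenstein series
      have hN := two_le_of_notMem N H h0 hγ
      refine ⟨4, Ea H 1, isMF_Ea 1, fun δ hδ => ?_, Ea_slash_ne hN hH h0 hγ⟩
      rw [Ea_slash hδ (coe_dU hδ)]
      exact (isInt_qe_Ea hN hH _).isRat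
    · refine ⟨12, xN N, (isMF_xN N).mono (GH_le N H), fun δ hδ => ?_, fun heq => h0 ?_⟩
      · rw [(isMF_xN N).slash δ hδ]
        exact isRat_qe_xN N
      · exact mem_Gamma0_of_xN_slash (N := N) heq

/-- the groups `Γ_H(N)` are cut out by rational modular forms -/
theorem ratG_GH (N : ℕ) [NeZero N] (H : Subgroup (ZMod N)ˣ) (hH : -1 ∈ H) : RatG (GH N H) where
  sep γ hγ := by
    by_cases h0 : γ ∈ CongruenceSubgroup.Gamma0 N
    · have hN := two_le_of_notMem N H h0 hγ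
      exact ⟨4, Ea H 1, isMF_Ea 1, (isInt_qe_Ea hN hH 1).isRat, Ea_slash_ne hN hH h0 hγ⟩
    · exact ⟨12, xN N, (isMF_xN N).mono (GH_le N H), isRat_qe_xN N,
        fun heq => h0 (mem_Gamma0_of_xN_slash (N := N) heq)⟩

end Fermat.Agent.GamH
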