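import Mathlib

/-!
# Eisenstein series of weight four for `Γ(M)` as lattice sums, with their `q`-expansions
-/

set_option autoImplicit false
set_option linter.style.haveILetI false
set_option linter.unusedSectionVars false

noncomputable section

open UpperHalfPlane hiding I
open Complex Filter ModularForm EisensteinSeries Matrix
open scoped Topology MatrixGroups Real

namespace Fermat.Agent.GamH

variable (M : ℕ) [NeZero M]

/-- `q_M = exp (2 π i z / M)` -/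
def qM (z : ℂ) : ℂ := cexp (2 * π * I * z / M)

/-- the standard root of unity -/
def zM : ℂ := cexp (2 * π * I / M)

/-- the normalising constant -/
def C4 : ℂ := (-2 * π * I) ^ 4 / 6 / (M : ℂ) ^ 4

theorem C4_ne_zero : C4 M ≠ 0 := by
  rw [C4]
  have h1 : (π : ℂ) ≠ 0 := by exact_mod_cast Real.pi_ne_zero
  have h2 : (M : ℂ) ≠ 0 := by exact_mod_cast NeZero.ne M
  have h3 : (-2 * π * I : ℂ) ≠ 0 := by
    simp [h1]
  exact div_ne_zero (div_ne_zero (pow_ne_zero _ h3) (by norm_num)) (pow_ne_zero _ h2)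

theorem zM_pow : zM M ^ M = 1 := by
  rw [zM, ← Complex.exp_nat_mul]
  have h2 : (M : ℂ) ≠ 0 := by exact_mod_cast NeZero.ne M
  rw [mul_div_cancel₀ _ h2, Complex.exp_two_pi_mul_I]

theorem zM_primitive : IsPrimitiveRoot (zM M) M := Complex.isPrimitiveRoot_exp M (NeZero.ne M)

variable {M}

theorem norm_qM_lt (z : ℍ) : ‖qM M z‖ < 1 := by
  have hM : (0 : ℝ) < M := by exact_mod_cast NeZero.pos M
  rw [qM, Complex.norm_exp, Real.exp_lt_one_iff]
  have : (2 * π * I * (z : ℂ) / M).re = -(2 * π * z.im / M) := by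
    rw [Complex.div_natCast_re]
    simp
    ring
  rw [this]
  have := z.im_pos
  have : 0 < 2 * π * z.im / M := by positivity
  linarith

theorem norm_qM_lt' {z : ℂ} (hz : 0 < z.im) : ‖qM M z‖ < 1 := norm_qM_lt (⟨z, hz⟩ : ℍ)

/-- the sum over one residue class -/
theorem tsum_class (a : ZMod M) (z : ℍ) :
    ∑' n : ℤ, (if (n : ZMod M) = a then (((z : ℂ) + n) ^ 4)⁻¹ else 0) =
      C4 M * ∑' d : ℕ+, (d : ℂ) ^ 3 * (zM M ^ a.val * qM M z) ^ (d : ℕ) := by
  have hM0 : (M : ℂ) ≠ 0 := by exact_mod_cast NeZero.ne M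
  have hMr : (0 : ℝ) < M := by exact_mod_cast NeZero.pos M
  let j : ℤ → ℤ := fun k => a.val + M * k
  have hj : Function.Injective j := by
    intro k l h
    have h1 : (M : ℤ) * k = M * l := by simpa [j] using h
    exact mul_left_cancel₀ (by exact_mod_cast NeZero.ne M) h1
  have hjc : ∀ k, ((j k : ℤ) : ZMod M) = a := by
    intro k
    simp [j]
  have hsupp : Function.support (fun n : ℤ => if (n : ZMod M) = a then (((z : ℂ) + n) ^ 4)⁻¹ else 0)
      ⊆ Set.range j := by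
    intro n hn
    rw [Function.mem_support] at hn
    have h1 : (n : ZMod M) = a := by
      by_contra h
      rw [if_neg h] at hn
      exact hn rfl
    have h2 : ((n - a.val : ℤ) : ZMod M) = 0 := by
      push_cast
      rw [h1, ZMod.natCast_zmod_val, sub_self]
    rw [ZMod.intCast_zmod_eq_zero_iff_dvd] at h2
    obtain ⟨k, hk⟩ := h2
    exact ⟨k, by simp only [j]; linarith⟩
  rw [← hj.tsum_eq hsupp]
  have him : 0 < (((z : ℂ) + a.val) / M).im := by
    rw [Complex.div_natCast_im]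
    have : ((z : ℂ) + (a.val : ℂ)).im = z.im := by
      rw [Complex.add_im, Complex.natCast_im, add_zero, UpperHalfPlane.coe_im]
    rw [this]
    exact div_pos z.im_pos hMr
  have h1 := EisensteinSeries.qExpansion_identity_pnat (k := 3) (by norm_num)
    (⟨((z : ℂ) + a.val) / M, him⟩ : ℍ)
  have h2 : ∀ k : ℤ, (if ((j k : ℤ) : ZMod M) = a then (((z : ℂ) + (j k : ℤ)) ^ 4)⁻¹ else 0) =
      ((M : ℂ) ^ 4)⁻¹ * (1 / (((⟨((z : ℂ) + a.val) / M, him⟩ : ℍ) : ℂ) + k) ^ (3 + 1)) := by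
    intro k
    rw [if_pos (hjc k)]
    change _ = ((M : ℂ) ^ 4)⁻¹ * (1 / (((z : ℂ) + a.val) / M + k) ^ (3 + 1))
    have : (((z : ℂ) + a.val) / M + k) = ((z : ℂ) + (j k : ℤ)) / M := by
      simp only [j]
      push_cast
      field_simp
      ring
    rw [this, div_pow, one_div_div]
    field_simp
  rw [tsum_congr h2, tsum_mul_left, h1]
  have h3 : ∀ d : ℕ+, ((d : ℕ) : ℂ) ^ 3 *
      cexp (2 * π * I * ((⟨((z : ℂ) + a.val) / M, him⟩ : ℍ) : ℂ)) ^ (d : ℕ) =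
      (d : ℂ) ^ 3 * (zM M ^ a.val * qM M z) ^ (d : ℕ) := by
    intro d
    congr 2
    rw [zM, qM, ← Complex.exp_nat_mul, ← Complex.exp_add]
    congr 1
    change 2 * π * I * (((z : ℂ) + a.val) / M) = _
    field_simp
    ring
  rw [tsum_congr h3, C4]
  simp only [Nat.factorial]
  push_cast
  ring

/-- the rational function giving the constant terms -/
def Pc {K : Type*} [Field K] (x : K) : K := x * (1 + 4 * x + x ^ 2) / (1 - x) ^ 4

theorem choose3 (n : ℕ) : ((n + 3).choose 3 : ℂ) = (n + 3) * (n + 2) * (n + 1) / 6 := by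
  have h3 : ((n + 3).choose 3 * 6 : ℕ) = (n + 3) * (n + 2) * (n + 1) := by
    have := Nat.descFactorial_eq_factorial_mul_choose (n + 3) 3
    simp only [Nat.factorial, Nat.descFactorial] at this
    have e : n + 3 - 2 = n + 1 := by omega
    have e' : n + 3 - 1 = n + 2 := by omega
    rw [e, e'] at this
    norm_num at this
    nlinarith
  have h4 : (((n + 3).choose 3 * 6 : ℕ) : ℂ) = ((n + 3) * (n + 2) * (n + 1) : ℕ) := by rw [h3]
  push_cast at h4
  field_simp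
  linear_combination h4

theorem choose2 (n : ℕ) : ((n + 2).choose 2 : ℂ) = (n + 2) * (n + 1) / 2 := by
  have h3 : ((n + 2).choose 2 * 2 : ℕ) = (n + 2) * (n + 1) := by
    have := Nat.descFactorial_eq_factorial_mul_choose (n + 2) 2
    simp only [Nat.factorial, Nat.descFactorial] at this
    norm_num at this
    nlinarith
  have h4 : (((n + 2).choose 2 * 2 : ℕ) : ℂ) = ((n + 2) * (n + 1) : ℕ) := by rw [h3]
  push_cast at h4
  field_simp
  linear_combination h4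

theorem tsum_cube {x : ℂ} (hx : ‖x‖ < 1) : ∑' d : ℕ+, (d : ℂ) ^ 3 * x ^ (d : ℕ) = Pc x := by
  have h1 : HasSum (fun n : ℕ => ((n + 3).choose 3 : ℂ) * x ^ n) (1 / (1 - x) ^ (3 + 1)) :=
    hasSum_choose_mul_geometric_of_norm_lt_one 3 hx
  have hs : Summable (fun n : ℕ => (n : ℂ) ^ 3 * x ^ n) :=
    summable_pow_mul_geometric_of_norm_lt_one 3 hx
  have hx1 : (1 - x) ≠ 0 := by
    intro h
    have : x = 1 := by linear_combination -h
    rw [this] at hx
    simp at hx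
  have hb1 : HasSum (fun n : ℕ => ((n + 1).choose 1 : ℂ) * x ^ n) (1 / (1 - x) ^ (1 + 1)) :=
    hasSum_choose_mul_geometric_of_norm_lt_one 1 hx
  have hb2 : HasSum (fun n : ℕ => ((n + 2).choose 2 : ℂ) * x ^ n) (1 / (1 - x) ^ (2 + 1)) :=
    hasSum_choose_mul_geometric_of_norm_lt_one 2 hx
  have hb0 : HasSum (fun n : ℕ => x ^ n) (1 - x)⁻¹ := hasSum_geometric_of_norm_lt_one hx
  have hc : HasSum (fun n : ℕ => (n : ℂ) ^ 3 * x ^ n)
      (6 * (1 / (1 - x) ^ (3 + 1)) - 12 * (1 / (1 - x) ^ (2 + 1)) + 7 * (1 / (1 - x) ^ (1 + 1)) -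
        (1 - x)⁻¹) := by
    have h := (((h1.mul_left 6).sub (hb2.mul_left 12)).add (hb1.mul_left 7)).sub hb0
    have e : (fun n : ℕ => (n : ℂ) ^ 3 * x ^ n) = fun b : ℕ => 6 * (((b + 3).choose 3 : ℂ) * x ^ b) -
        12 * (((b + 2).choose 2 : ℂ) * x ^ b) + 7 * (((b + 1).choose 1 : ℂ) * x ^ b) - x ^ b := by
      funext n
      rw [choose3, choose2, Nat.choose_one_right]
      push_cast
      ring
    rw [e]
    exact h
  have h5 : ∑' n : ℕ, (n : ℂ) ^ 3 * x ^ n = ∑' d : ℕ+, (d : ℂ) ^ 3 * x ^ (d : ℕ) := by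
    rw [← tsum_zero_pnat_eq_tsum_nat hs]
    simp
  rw [← h5, hc.tsum_eq, Pc]
  field_simp
  ring

/-! ### lattice sums with congruence conditions -/

open Classical in
/-- the terms of the lattice sum -/
def trm (P : ℤ → Prop) (b : ZMod M) (z : ℍ) (w : ℤ × ℤ) : ℂ :=
  if P w.1 ∧ (w.2 : ZMod M) = b then (((w.1 : ℂ) * z + w.2) ^ 4)⁻¹ else 0

/-- the lattice sum over `P m`, `n ≡ b` -/
def lsum (P : ℤ → Prop) (b : ZMod M) (z : ℍ) : ℂ := ∑' w : ℤ × ℤ, trm P b z w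

theorem summable_trm (P : ℤ → Prop) (b : ZMod M) (z : ℍ) : Summable (trm P b z) := by
  classical
  have h1 : Summable fun x : ℤ × ℤ ↦ eisSummand 4 ![x.1, x.2] z :=
    summable_prod_eisSummand (by norm_num) z
  refine Summable.of_norm_bounded (g := fun x : ℤ × ℤ ↦ ‖eisSummand 4 ![x.1, x.2] z‖)
    h1.norm ?_
  intro w
  rw [trm]
  split_ifs
  · apply le_of_eq
    rw [eisSummand]
    simp
  · simp

/-- the constant -/
def kap (b : ZMod M) : ℂ := ∑' n : ℤ, (if (n : ZMod M) = b then (((n : ℂ)) ^ 4)⁻¹ else 0)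

open Classical in
/-- the coefficients of the `q_M`-expansion -/
def cG (P : ℤ → Prop) (b : ZMod M) (n : ℕ) : ℂ :=
  if n = 0 then (if P 0 then kap b else 0) else
    C4 M * ∑ x ∈ n.divisorsAntidiagonal,
      ((if P (x.1 : ℤ) then (x.2 : ℂ) ^ 3 * (zM M ^ b.val) ^ x.2 else 0) +
        (if P (-(x.1 : ℤ)) then (x.2 : ℂ) ^ 3 * (zM M ^ (-b).val) ^ x.2 else 0))

theorem norm_zM : ‖zM M‖ = 1 :=
  Complex.norm_eq_one_of_pow_eq_one (zM_pow M) (NeZero.ne M)

theorem qM_mul (m : ℕ) (z : ℂ) : qM M ((m : ℂ) * z) = qM M z ^ m := by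
  rw [qM, qM, ← Complex.exp_nat_mul]
  congr 1
  ring

/-- the double series -/
theorem summable_double (P : ℤ → Prop) [DecidablePred P] (c : ℂ) (hc : ‖c‖ = 1) {q : ℂ}
    (hq : ‖q‖ < 1) : Summable fun x : ℕ+ × ℕ+ =>
      (if P ((x.1 : ℕ) : ℤ) then ((x.2 : ℕ) : ℂ) ^ 3 * (c * q ^ (x.1 : ℕ)) ^ (x.2 : ℕ) else 0) := by
  have h1 := (summable_prod_mul_pow 3 hq).norm
  refine Summable.of_norm_bounded h1 ?_
  rintro ⟨m, d⟩
  simp only
  split_ifs
  · rw [mul_pow, norm_mul, norm_mul, norm_mul, norm_pow c, hc, one_pow, one_mul, ← pow_mul]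
  · rw [norm_zero]; exact norm_nonneg _

theorem tsum_trm_pos (P : ℤ → Prop) [DecidablePred P] (b : ZMod M) (z : ℍ) (m : ℕ+) :
    ∑' n : ℤ, trm P b z (((m : ℕ) : ℤ), n) = C4 M * ∑' d : ℕ+,
      (if P ((m : ℕ) : ℤ) then ((d : ℕ) : ℂ) ^ 3 * (zM M ^ b.val * qM M z ^ (m : ℕ)) ^ (d : ℕ)
        else 0) := by
  have him : 0 < (((m : ℕ) : ℂ) * z).im := by
    have : (((m : ℕ) : ℂ) * z).im = ((m : ℕ) : ℝ) * z.im := by simp
    rw [this]
    exact mul_pos (by exact_mod_cast m.pos) z.im_pos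
  by_cases hP : P ((m : ℕ) : ℤ)
  · have h1 := tsum_class b (⟨((m : ℕ) : ℂ) * z, him⟩ : ℍ)
    have h2 : ∀ n : ℤ, trm P b z (((m : ℕ) : ℤ), n) =
        if (n : ZMod M) = b then ((((⟨((m : ℕ) : ℂ) * z, him⟩ : ℍ) : ℂ) + n) ^ 4)⁻¹ else 0 := by
      intro n
      rw [trm]
      simp only [hP, true_and]
      congr 1
    rw [tsum_congr h2, h1]
    congr 1
    refine tsum_congr fun d => ?_
    rw [if_pos hP]
    congr 3
    exact qM_mul (m : ℕ) z
  · have h2 : ∀ n : ℤ, trm P b z (((m : ℕ) : ℤ), n) = 0 := by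
      intro n
      rw [trm, if_neg (fun h => hP h.1)]
    rw [tsum_congr h2]
    simp [hP]

theorem trm_neg (P : ℤ → Prop) (b : ZMod M) (z : ℍ) (m n : ℤ) :
    trm P b z (-m, n) = trm (fun i => P (-i)) (-b) z (m, -n) := by
  rw [trm, trm]
  have h1 : ((n : ZMod M) = b) ↔ (((-n : ℤ) : ZMod M) = -b) := by
    push_cast
    exact (neg_inj).symm
  have h2 : ((((-m : ℤ) : ℂ) * z + n) ^ 4)⁻¹ = (((m : ℂ) * z + ((-n : ℤ) : ℂ)) ^ 4)⁻¹ := by
    push_cast
    have : (-(m : ℂ) * z + n) = -((m : ℂ) * z + -n) := by ring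
    rw [this, Even.neg_pow (by decide)]
  by_cases h : P (-m) ∧ (n : ZMod M) = b
  · rw [if_pos h, if_pos ⟨h.1, h1.1 h.2⟩, h2]
  · rw [if_neg h, if_neg (fun h' => h ⟨h'.1, h1.2 h'.2⟩)]

theorem tsum_trm_neg (P : ℤ → Prop) [DecidablePred P] (b : ZMod M) (z : ℍ) (m : ℕ+) :
    ∑' n : ℤ, trm P b z (-((m : ℕ) : ℤ), n) = C4 M * ∑' d : ℕ+,
      (if P (-((m : ℕ) : ℤ)) then ((d : ℕ) : ℂ) ^ 3 * (zM M ^ (-b).val * qM M z ^ (m : ℕ)) ^ (d : ℕ)
        else 0) := by
  rw [← tsum_trm_pos (fun i => P (-i)) (-b) z m, ← (Equiv.neg ℤ).tsum_eq]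
  refine tsum_congr fun n => ?_
  rw [Equiv.neg_apply, trm_neg, neg_neg]

theorem tsum_trm_zero (P : ℤ → Prop) [DecidablePred P] (b : ZMod M) (z : ℍ) :
    ∑' n : ℤ, trm P b z (0, n) = if P 0 then kap b else 0 := by
  by_cases hP : P 0
  · rw [if_pos hP, kap]
    refine tsum_congr fun n => ?_
    rw [trm]
    simp [hP]
  · rw [if_neg hP]
    have h2 : ∀ n : ℤ, trm P b z (0, n) = 0 := by
      intro n
      rw [trm, if_neg (fun h => hP h.1)]
    rw [tsum_congr h2, tsum_zero]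

/-- **the `q_M`-expansion of the lattice sums** -/
theorem hasSum_lsum (P : ℤ → Prop) (b : ZMod M) (z : ℍ) :
    HasSum (fun n : ℕ => cG P b n * qM M z ^ n) (lsum P b z) := by
  classical
  have hs : Summable (trm P b z) := summable_trm P b z
  have h1 : lsum P b z = ∑' m : ℤ, ∑' n : ℤ, trm P b z (m, n) := hs.tsum_prod
  rw [tsum_int_eq_zero_add_tsum_pnat hs.prod] at h1
  have e1 : ∑' m : ℕ+, ∑' n : ℤ, trm P b z (((m : ℕ) : ℤ), n) = C4 M * ∑' x : ℕ+ × ℕ+,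
      (if P ((x.1 : ℕ) : ℤ) then ((x.2 : ℕ) : ℂ) ^ 3 *
        (zM M ^ b.val * qM M z ^ (x.1 : ℕ)) ^ (x.2 : ℕ) else 0) := by
    rw [(summable_double P (zM M ^ b.val) (by rw [norm_pow, norm_zM, one_pow])
      (norm_qM_lt z)).tsum_prod, ← tsum_mul_left]
    exact tsum_congr fun m => tsum_trm_pos P b z m
  have e2 : ∑' m : ℕ+, ∑' n : ℤ, trm P b z (-((m : ℕ) : ℤ), n) = C4 M * ∑' x : ℕ+ × ℕ+,
      (if P (-((x.1 : ℕ) : ℤ)) then ((x.2 : ℕ) : ℂ) ^ 3 *
        (zM M ^ (-b).val * qM M z ^ (x.1 : ℕ)) ^ (x.2 : ℕ) else 0) := by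
    rw [(summable_double (fun i => P (-i)) (zM M ^ (-b).val) (by rw [norm_pow, norm_zM, one_pow])
      (norm_qM_lt z)).tsum_prod, ← tsum_mul_left]
    exact tsum_congr fun m => tsum_trm_neg P b z m
  have hA := summable_double P (zM M ^ b.val) (by rw [norm_pow, norm_zM, one_pow])
      (norm_qM_lt (M := M) z)
  have hB := summable_double (fun i => P (-i)) (zM M ^ (-b).val) (by rw [norm_pow, norm_zM, one_pow])
      (norm_qM_lt (M := M) z)
  have hAB := (hA.add hB)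
  set g : ℕ+ × ℕ+ → ℂ := fun x =>
    (if P ((x.1 : ℕ) : ℤ) then ((x.2 : ℕ) : ℂ) ^ 3 *
        (zM M ^ b.val * qM M z ^ (x.1 : ℕ)) ^ (x.2 : ℕ) else 0) +
    (if P (-((x.1 : ℕ) : ℤ)) then ((x.2 : ℕ) : ℂ) ^ 3 *
        (zM M ^ (-b).val * qM M z ^ (x.1 : ℕ)) ^ (x.2 : ℕ) else 0) with hg
  have e3 : lsum P b z = (if P 0 then kap b else 0) + C4 M * ∑' x, g x := by
    rw [h1, e1, e2, tsum_trm_zero, hg, hA.tsum_add hB]
    ring
  have e4 : HasSum g (∑' x, g x) := hAB.hasSum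
  rw [← sigmaAntidiagonalEquivProd.hasSum_iff] at e4
  have e5 := e4.sigma (fun n => hasSum_fintype _)
  have e6 : HasSum (fun n : ℕ+ => C4 M * ∑ c : (n : ℕ).divisorsAntidiagonal,
      (g ∘ sigmaAntidiagonalEquivProd) ⟨n, c⟩) (C4 M * ∑' x, g x) := e5.mul_left _
  have e7 : ∀ n : ℕ+, C4 M * ∑ c : (n : ℕ).divisorsAntidiagonal,
      (g ∘ sigmaAntidiagonalEquivProd) ⟨n, c⟩ = cG P b (n : ℕ) * qM M z ^ (n : ℕ) := by
    intro n
    have hn : (n : ℕ) ≠ 0 := n.ne_zero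
    rw [cG, if_neg hn, mul_assoc, Finset.sum_mul]
    congr 1
    rw [← Finset.sum_coe_sort (n : ℕ).divisorsAntidiagonal]
    refine Finset.sum_congr rfl fun x _ => ?_
    have hx : (x.1.1 * x.1.2 : ℕ) = n := (Nat.mem_divisorsAntidiagonal.1 x.2).1
    change g (divisorsAntidiagonalFactors n x) = _
    have f1 : (((divisorsAntidiagonalFactors n x).1 : ℕ+) : ℕ) = x.1.1 := rfl
    have f2 : (((divisorsAntidiagonalFactors n x).2 : ℕ+) : ℕ) = x.1.2 := rfl
    simp only [hg, f1, f2]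
    have hq : qM M z ^ (n : ℕ) = (qM M z ^ x.1.1) ^ x.1.2 := by rw [← pow_mul, hx]
    rw [hq, add_mul]
    congr 1
    · split_ifs <;> ring
    · split_ifs <;> ring
  rw [funext e7] at e6
  have e8 : HasSum (fun n : ℕ => cG P b n * qM M z ^ n)
      ((if P 0 then kap b else 0) + C4 M * ∑' x, g x) := by
    have h0 : cG P b 0 * qM M z ^ 0 = if P 0 then kap b else 0 := by
      rw [cG, if_pos rfl, pow_zero, mul_one]
    have e9 := (hasSum_pnat_iff (f := fun n : ℕ => cG P b n * qM M z ^ n)).1 e6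
    rw [h0] at e9
    rwa [add_comm] at e9
  rw [e3]
  exact e8

end Fermat.Agent.GamH
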